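import Mathlib
import Fermat.Agent.H92.MW.LPFInterfaces

/-!
# P-MW / MW-C-COORD (row 867): a local homomorphism from a DVR is determined by the image of the
uniformizer

`D = φ - φ'` is a `(φ, φ')`-derivation killing `k` and `u`; the ideal `M` of `V` generated by
`D(O)` is finitely generated (by `D(S)`) and satisfies `M ≤ (φ u) M`; Nakayama.
-/

set_option autoImplicit false

noncomputable section

namespace Fermat.Agent.H18.MW

open Fermat.Agent.H92.MW

/-- **MW-C-COORD** (row 867). -/
theorem coordInj : CoordInjStatement := by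
  intro k O V _ _ _ _ _ _ _ _ _ u φ φ' hu hres hS hφu huu
  obtain ⟨S, hS⟩ := hS
  -- the difference
  set D : O → V := fun f => φ f - φ' f with hD
  have hadd : ∀ f g, D (f + g) = D f + D g := by
    intro f g
    simp only [hD, map_add]
    ring
  have hleib : ∀ f g, D (f * g) = φ f * D g + D f * φ' g := by
    intro f g
    simp only [hD, map_mul]
    ring
  have hDu : D u = 0 := by
    simp only [hD]
    rw [huu, sub_self]
  have hDc : ∀ c : k, D (algebraMap k O c) = 0 := by
    intro c
    simp only [hD]
    rw [AlgHom.commutes, AlgHom.commutes, sub_self]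
  -- the ideal generated by `D(S)`
  set M : Ideal V := Ideal.span (D '' (S : Set O)) with hM
  have hMfg : M.FG := by
    rw [hM]
    exact Submodule.fg_span ((S.finite_toSet).image D)
  have hadj : ∀ p ∈ Algebra.adjoin k (S : Set O), D p ∈ M := by
    intro p hp
    induction hp using Algebra.adjoin_induction with
    | mem x hx => exact Ideal.subset_span ⟨x, hx, rfl⟩
    | algebraMap c => rw [hDc]; exact M.zero_mem
    | add x y _ _ hx hy => rw [hadd]; exact M.add_mem hx hy
    | mul x y _ _ hx hy =>
      rw [hleib]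
      exact M.add_mem (M.mul_mem_left _ hy) (M.mul_mem_right _ hx)
  have hall : ∀ h : O, D h ∈ M := by
    intro h
    obtain ⟨p, q, hp, hq, hqu, hpq⟩ := hS h
    have h1 : D p = φ h * D q + D h * φ' q := by rw [← hpq, hleib]
    obtain ⟨w, hw⟩ := hqu.map φ'
    have h2 : D h = (D p - φ h * D q) * ((w⁻¹ : Vˣ) : V) := by
      rw [h1, ← hw, add_sub_cancel_left, mul_assoc, Units.mul_inv, mul_one]
    rw [h2]
    exact M.mul_mem_right _ (M.sub_mem (hadj p hp) (M.mul_mem_left _ (hadj q hq)))
  -- `M ≤ (φ u) M`
  have hstep : ∀ h : O, D h ∈ Ideal.span {φ u} • M := by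
    intro h
    obtain ⟨c, hc⟩ := hres h
    rw [hu.maximalIdeal_eq, Ideal.mem_span_singleton] at hc
    obtain ⟨y, hy⟩ := hc
    have hh : h = algebraMap k O c + u * y := by rw [← hy]; ring
    have : D h = φ u * D y := by
      rw [hh, hadd, hDc, zero_add, hleib, hDu, zero_mul, add_zero]
    rw [this, ← smul_eq_mul]
    exact Submodule.smul_mem_smul (Ideal.mem_span_singleton_self _) (hall y)
  have hsm : M ≤ Ideal.span {φ u} • M := by
    rw [hM, Ideal.span_le]
    rintro _ ⟨s, -, rfl⟩
    exact hstep s
  have hjac : Ideal.span {φ u} ≤ Ideal.jacobson (⊥ : Ideal V) := by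
    rw [IsLocalRing.jacobson_eq_maximalIdeal ⊥ bot_ne_top, Ideal.span_le]
    rintro _ rfl
    exact hφu
  have hbot : M = ⊥ := Submodule.eq_bot_of_le_smul_of_le_jacobson_bot _ M hMfg hsm hjac
  refine AlgHom.ext fun h => ?_
  have := hall h
  rw [hbot, Ideal.mem_bot] at this
  exact sub_eq_zero.mp this

end Fermat.Agent.H18.MW
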