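import Mathlib
import Fermat.Agent.H92.MW.LPFInterfaces

/-!
# P-MW / MW-C-TAYLOR (row 868): Taylor coefficients in a discrete valuation ring

`O` a discrete valuation ring, a `k`-algebra with residue field `k`, `u` a uniformizer.
`T 0` is the residue functional, `q h = (h - T 0 h) / u`, `T i = T 0 ∘ q ^ i`.
-/

set_option autoImplicit false

noncomputable section

namespace Fermat.Agent.H18.MW

open Fermat.Agent.H92.MW

section Taylor

variable {k O : Type} [Field k] [CommRing O] [IsDomain O] [IsDiscreteValuationRing O]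
  [Algebra k O]

/-- the structure map `k → O / 𝔪` -/
def tyRes (k O : Type) [Field k] [CommRing O] [IsDomain O] [IsDiscreteValuationRing O]
    [Algebra k O] : k →ₐ[k] IsLocalRing.ResidueField O :=
  Algebra.ofId k (IsLocalRing.ResidueField O)

theorem tyRes_apply (c : k) :
    tyRes k O c = IsLocalRing.residue O (algebraMap k O c) := rfl

theorem tyRes_bijective
    (hres : ∀ h : O, ∃ c : k, h - algebraMap k O c ∈ IsLocalRing.maximalIdeal O) :
    Function.Bijective (tyRes k O) := by
  refine ⟨(tyRes k O).toRingHom.injective, fun x => ?_⟩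
  obtain ⟨h, rfl⟩ := IsLocalRing.residue_surjective x
  obtain ⟨c, hc⟩ := hres h
  refine ⟨c, ?_⟩
  rw [tyRes_apply]
  have := (IsLocalRing.residue_eq_zero_iff _).mpr hc
  rw [map_sub, sub_eq_zero] at this
  exact this.symm

/-- the residue functional -/
def tyT0 (hres : ∀ h : O, ∃ c : k, h - algebraMap k O c ∈ IsLocalRing.maximalIdeal O) :
    O →ₗ[k] k :=
  (AlgEquiv.ofBijective (tyRes k O) (tyRes_bijective hres)).symm.toLinearMap ∘ₗ
    (IsScalarTower.toAlgHom k O (IsLocalRing.ResidueField O)).toLinearMap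

theorem tyRes_tyT0 (hres : ∀ h : O, ∃ c : k, h - algebraMap k O c ∈ IsLocalRing.maximalIdeal O)
    (h : O) : tyRes k O (tyT0 hres h) = IsLocalRing.residue O h := by
  unfold tyT0
  simp only [LinearMap.coe_comp, Function.comp_apply, AlgEquiv.toLinearMap_apply,
    AlgHom.toLinearMap_apply]
  have := (AlgEquiv.ofBijective (tyRes k O) (tyRes_bijective hres)).apply_symm_apply
    (IsScalarTower.toAlgHom k O (IsLocalRing.ResidueField O) h)
  rw [AlgEquiv.coe_ofBijective] at this
  rw [this]
  rfl

theorem ty_sub_mem (hres : ∀ h : O, ∃ c : k, h - algebraMap k O c ∈ IsLocalRing.maximalIdeal O)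
    (h : O) : h - algebraMap k O (tyT0 hres h) ∈ IsLocalRing.maximalIdeal O := by
  rw [← IsLocalRing.residue_eq_zero_iff, map_sub, ← tyRes_apply, tyRes_tyT0, sub_self]

theorem tyT0_eq_zero_iff
    (hres : ∀ h : O, ∃ c : k, h - algebraMap k O c ∈ IsLocalRing.maximalIdeal O) (h : O) :
    tyT0 hres h = 0 ↔ h ∈ IsLocalRing.maximalIdeal O := by
  rw [← IsLocalRing.residue_eq_zero_iff, ← tyRes_tyT0 hres h]
  constructor
  · intro h0
    rw [h0, map_zero]
  · intro h0
    exact (map_eq_zero_iff _ (tyRes k O).toRingHom.injective).mp h0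

variable {u : O}

theorem ty_exists_div (hu : Irreducible u)
    (hres : ∀ h : O, ∃ c : k, h - algebraMap k O c ∈ IsLocalRing.maximalIdeal O) (h : O) :
    ∃ y : O, h - algebraMap k O (tyT0 hres h) = u * y := by
  have h1 := ty_sub_mem hres h
  rw [hu.maximalIdeal_eq, Ideal.mem_span_singleton] at h1
  exact h1

/-- the division map `h ↦ (h - T₀ h) / u` as a function -/
def tyQfun (hu : Irreducible u)
    (hres : ∀ h : O, ∃ c : k, h - algebraMap k O c ∈ IsLocalRing.maximalIdeal O) (h : O) : O :=
  (ty_exists_div hu hres h).choose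

theorem tyQfun_spec (hu : Irreducible u)
    (hres : ∀ h : O, ∃ c : k, h - algebraMap k O c ∈ IsLocalRing.maximalIdeal O) (h : O) :
    h - algebraMap k O (tyT0 hres h) = u * tyQfun hu hres h :=
  (ty_exists_div hu hres h).choose_spec

/-- the division map `h ↦ (h - T₀ h) / u` -/
def tyQ (hu : Irreducible u)
    (hres : ∀ h : O, ∃ c : k, h - algebraMap k O c ∈ IsLocalRing.maximalIdeal O) : O →ₗ[k] O where
  toFun := tyQfun hu hres
  map_add' x y := by
    apply mul_left_cancel₀ hu.ne_zero
    rw [mul_add, ← tyQfun_spec, ← tyQfun_spec, ← tyQfun_spec, map_add, map_add]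
    ring
  map_smul' c x := by
    apply mul_left_cancel₀ hu.ne_zero
    rw [RingHom.id_apply, ← tyQfun_spec, mul_smul_comm, ← tyQfun_spec, map_smul, smul_eq_mul,
      map_mul, Algebra.smul_def, Algebra.smul_def]
    ring

theorem tyQ_spec (hu : Irreducible u)
    (hres : ∀ h : O, ∃ c : k, h - algebraMap k O c ∈ IsLocalRing.maximalIdeal O) (h : O) :
    h - algebraMap k O (tyT0 hres h) = u * tyQ hu hres h :=
  tyQfun_spec hu hres h

/-- the Taylor coefficients -/
def tyT (hu : Irreducible u)
    (hres : ∀ h : O, ∃ c : k, h - algebraMap k O c ∈ IsLocalRing.maximalIdeal O) (i : ℕ) :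
    O →ₗ[k] k :=
  tyT0 hres ∘ₗ (tyQ hu hres ^ i)

theorem tyT_apply (hu : Irreducible u)
    (hres : ∀ h : O, ∃ c : k, h - algebraMap k O c ∈ IsLocalRing.maximalIdeal O) (i : ℕ) (h : O) :
    tyT hu hres i h = tyT0 hres ((tyQ hu hres ^ i) h) := rfl

/-- the exact Taylor expansion with remainder -/
theorem ty_expansion (hu : Irreducible u)
    (hres : ∀ h : O, ∃ c : k, h - algebraMap k O c ∈ IsLocalRing.maximalIdeal O) (h : O)
    (s : ℕ) :
    h - ∑ i ∈ Finset.range s, algebraMap k O (tyT hu hres i h) * u ^ i =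
      u ^ s * (tyQ hu hres ^ s) h := by
  induction s with
  | zero => simp
  | succ s ih =>
    rw [Finset.sum_range_succ, ← sub_sub, ih, tyT_apply, pow_succ' (tyQ hu hres) s,
      Module.End.mul_apply, pow_succ, mul_assoc, ← tyQ_spec hu hres ((tyQ hu hres ^ s) h)]
    ring

/-- **MW-C-TAYLOR** (row 868). -/
theorem taylor : TaylorStatement := by
  intro k O _ _ _ _ _ u hu hres
  refine ⟨tyT hu hres, fun h s => ?_, fun h s => ?_⟩
  · rw [ty_expansion hu hres h s, Ideal.mem_span_singleton]
    exact Dvd.intro _ rfl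
  · constructor
    · intro h0
      have h1 := ty_expansion hu hres h s
      rw [Finset.sum_eq_zero (fun i hi => by
        rw [h0 i (Finset.mem_range.mp hi), map_zero, zero_mul]), sub_zero] at h1
      rw [h1, Ideal.mem_span_singleton]
      exact Dvd.intro _ rfl
    · intro hmem i
      induction i using Nat.strong_induction_on with
      | _ i ih =>
        intro his
        have h1 := ty_expansion hu hres h i
        rw [Finset.sum_eq_zero (fun j hj => by
          rw [ih j (Finset.mem_range.mp hj) (lt_trans (Finset.mem_range.mp hj) his), map_zero,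
            zero_mul]), sub_zero] at h1
        rw [Ideal.mem_span_singleton] at hmem
        obtain ⟨y, hy⟩ := hmem
        have h2 : u ^ i * (tyQ hu hres ^ i) h = u ^ i * (u ^ (s - i) * y) := by
          rw [← h1, hy, ← mul_assoc, ← pow_add, Nat.add_sub_cancel' his.le]
        have h3 := mul_left_cancel₀ (pow_ne_zero i hu.ne_zero) h2
        rw [tyT_apply, tyT0_eq_zero_iff, h3, hu.maximalIdeal_eq, Ideal.mem_span_singleton]
        have : s - i = (s - i - 1) + 1 := by omega
        rw [this, pow_succ', mul_assoc]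
        exact Dvd.intro _ rfl

end Taylor

end Fermat.Agent.H18.MW
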